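import Fermat.Agent.S19.A.Zl

/-!
# S19 / A / Desc : elementary consequences of `UnramBase`   (TASK S19/A2-Base)
-/

set_option autoImplicit false

namespace Fermat.Agent.S19.A

variable {ℓ : ℕ} [Fact ℓ.Prime] {I : Subgroup GQ} {φ : GQ} {R' : Subring Qb}

/-- an integer prime to `ℓ` is a unit of `R'`, integer version. -/
theorem UnramBase.isUnit_intCast (hR : UnramBase ℓ I φ R') {z : ℤ} (hz : IsCoprime z (ℓ : ℤ)) :
    IsUnit (z : R') := by
  rcases hR.unit_or_dvd (z : R') with h | h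
  · exact h
  · exfalso
    obtain ⟨u, v, huv⟩ := hz
    have h1 : (u : R') * (z : R') + (v : R') * ((ℓ : ℕ) : R') = 1 := by
      exact_mod_cast congrArg (Int.cast : ℤ → R') huv
    have h2 : ((ℓ : ℕ) : R') ∣ 1 := by
      rw [← h1]
      exact dvd_add (dvd_mul_of_dvd_right h _) (dvd_mul_left _ _)
    exact hR.not_unit (isUnit_of_dvd_one h2)

/-- an integer prime to `ℓ` is a unit of `R'` (Bezout + `unit_or_dvd` + `not_unit`). -/
theorem UnramBase.isUnit_natCast (hR : UnramBase ℓ I φ R') {n : ℕ} (hn : n.Coprime ℓ) :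
    IsUnit ((n : ℕ) : R') := by
  have := hR.isUnit_intCast (Nat.isCoprime_iff_coprime.2 hn)
  rwa [Int.cast_natCast] at this

/-- `ℤ_(ℓ) ⊂ R'`. -/
theorem UnramBase.algebraMap_Zl_mem (hR : UnramBase ℓ I φ R') (r : Zl ℓ) :
    algebraMap (Zl ℓ) Qb r ∈ R' := by
  rw [algebraMap_Zl_Qb]
  have hden : (r : ℚ).den.Coprime ℓ := r.2
  obtain ⟨b, hb⟩ := (hR.isUnit_natCast hden).exists_right_inv
  have hb' : (((r : ℚ).den : ℕ) : Qb) * (b : Qb) = 1 := by
    have := congrArg Subtype.val hb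
    simpa using this
  have hd0 : (((r : ℚ).den : ℕ) : Qb) ≠ 0 := left_ne_zero_of_mul_eq_one hb'
  have h1 : algebraMap ℚ Qb (r : ℚ) = (((r : ℚ).num : ℤ) : Qb) * (b : Qb) := by
    conv_lhs => rw [← Rat.num_div_den (r : ℚ)]
    rw [map_div₀, map_intCast, map_natCast, div_eq_iff hd0, mul_assoc, mul_comm (b : Qb), hb',
      mul_one]
  rw [h1]
  exact mul_mem (intCast_mem _ _) b.2

/-- `R' ∩ ℚ ⊂ ℤ_(ℓ)`. -/
theorem UnramBase.mem_Zl_of_mem (hR : UnramBase ℓ I φ R') {q : ℚ}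
    (hq : algebraMap ℚ Qb q ∈ R') : q ∈ Zl ℓ := by
  have hℓ : ℓ.Prime := Fact.out
  rw [mem_Zl_iff]
  by_contra hcon
  have hd : ℓ ∣ q.den := by
    by_contra h
    exact hcon ((Nat.Prime.coprime_iff_not_dvd hℓ).2 h).symm
  have hnum : IsCoprime q.num (ℓ : ℤ) := by
    have h1 : q.num.natAbs.Coprime ℓ := Nat.Coprime.coprime_dvd_right hd q.reduced
    rw [Int.isCoprime_iff_gcd_eq_one]
    show Nat.gcd q.num.natAbs (ℓ : ℤ).natAbs = 1
    rw [Int.natAbs_natCast]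
    exact h1
  have hu := hR.isUnit_intCast hnum
  have h3 : (⟨algebraMap ℚ Qb q, hq⟩ : R') * ((q.den : ℕ) : R') = (q.num : R') := by
    apply Subtype.ext
    show algebraMap ℚ Qb q * (((q.den : ℕ) : R') : Qb) = ((q.num : R') : Qb)
    have h4 : q * (q.den : ℚ) = (q.num : ℚ) := Rat.mul_den_eq_num q
    have h5 := congrArg (algebraMap ℚ Qb) h4
    rw [map_mul, map_natCast, map_intCast] at h5
    simpa using h5
  have h6 : ((ℓ : ℕ) : R') ∣ (q.num : R') := by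
    rw [← h3]
    exact dvd_mul_of_dvd_right (Nat.cast_dvd_cast hd) _
  exact hR.not_unit (isUnit_of_dvd_unit h6 hu)

/-- `ℓ` is a prime element of `R'`. -/
theorem UnramBase.prime (hR : UnramBase ℓ I φ R') : Prime ((ℓ : ℕ) : R') := by
  have hℓ : ℓ.Prime := Fact.out
  refine ⟨?_, hR.not_unit, fun a b hab => ?_⟩
  · intro h
    have h1 := congrArg Subtype.val h
    have h2 : ((ℓ : ℕ) : Qb) = 0 := by simpa using h1
    exact hℓ.ne_zero (by exact_mod_cast h2)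
  · rcases hR.unit_or_dvd a with ha | ha
    · exact Or.inr ((ha.dvd_mul_left).1 hab)
    · exact Or.inl ha

/-- hypothesis `hfix` of `linearIndependent_of_equivariant` / `exists_basis_of_order` for `R = R'`,
`T = I`. -/
theorem UnramBase.exists_fraction (hR : UnramBase ℓ I φ R') {c : Qb}
    (hc : ∀ σ : I, (σ : GQ) c = c) :
    ∃ d r : R', algebraMap R' Qb d ≠ 0 ∧ algebraMap R' Qb d * c = algebraMap R' Qb r := by
  have hℓ : ℓ.Prime := Fact.out
  obtain ⟨n, hn⟩ := hR.fixed c (fun σ hσ => hc ⟨σ, hσ⟩)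
  have h1 : algebraMap R' Qb (((ℓ : ℕ) : R') ^ n) = (ℓ : Qb) ^ n := by
    rw [map_pow, map_natCast]
  refine ⟨((ℓ : ℕ) : R') ^ n, ⟨_, hn⟩, ?_, ?_⟩
  · rw [h1]
    exact pow_ne_zero _ (by exact_mod_cast hℓ.ne_zero)
  · rw [h1]
    rfl

theorem X_pow_sub_X_eq_prod_zmod (ℓ : ℕ) [Fact ℓ.Prime] :
    (Polynomial.X ^ ℓ - Polynomial.X : Polynomial (ZMod ℓ)) =
      ∏ z : ZMod ℓ, (Polynomial.X - Polynomial.C z) := by
  have hℓ : ℓ.Prime := Fact.out
  have h := FiniteField.roots_X_pow_card_sub_X (ZMod ℓ)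
  rw [ZMod.card] at h
  have hmonic : (Polynomial.X ^ ℓ - Polynomial.X : Polynomial (ZMod ℓ)).Monic :=
    Polynomial.monic_X_pow_sub (by
      rw [Polynomial.degree_X]
      exact_mod_cast hℓ.one_lt)
  have h2 := Polynomial.prod_multiset_X_sub_C_of_monic_of_roots_card_eq hmonic (by
    rw [h, FiniteField.X_pow_card_sub_X_natDegree_eq _ hℓ.one_lt]
    simp [ZMod.card])
  rw [h] at h2
  exact h2.symm

/-- the solutions of `a ^ ℓ = a` in the domain `R' / ℓ` are the classes of integers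
(`X ^ ℓ - X = ∏_{z : ZMod ℓ} (X - z)`: `FiniteField.X_pow_card_sub_X...` / or: the polynomial
`X ^ ℓ - X` has at most `ℓ` roots in the domain `R' ⧸ (ℓ)` and `0, …, ℓ - 1` are `ℓ` distinct roots). -/
theorem UnramBase.exists_int_of_pow (hR : UnramBase ℓ I φ R') (a : R')
    (ha : ((ℓ : ℕ) : R') ∣ a ^ ℓ - a) : ∃ z : ℤ, ((ℓ : ℕ) : R') ∣ a - (z : R') := by
  have hℓ : ℓ.Prime := Fact.out
  have hp := hR.prime
  have hprime : (Ideal.span {((ℓ : ℕ) : R')}).IsPrime :=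
    (Ideal.span_singleton_prime hp.ne_zero).2 hp
  have hdom : IsDomain (R' ⧸ Ideal.span {((ℓ : ℕ) : R')}) := Ideal.Quotient.isDomain _
  have hchar : CharP (R' ⧸ Ideal.span {((ℓ : ℕ) : R')}) ℓ := by
    rw [CharP.charP_iff_prime_eq_zero hℓ, ← map_natCast (Ideal.Quotient.mk _),
      Ideal.Quotient.eq_zero_iff_mem]
    exact Ideal.mem_span_singleton_self _
  set f : ZMod ℓ →+* (R' ⧸ Ideal.span {((ℓ : ℕ) : R')}) := ZMod.castHom (dvd_refl ℓ) _ with hf
  set ab := Ideal.Quotient.mk (Ideal.span {((ℓ : ℕ) : R')}) a with hab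
  have h0 : ab ^ ℓ - ab = 0 := by
    rw [hab, ← map_pow, ← map_sub, Ideal.Quotient.eq_zero_iff_mem, Ideal.mem_span_singleton]
    exact ha
  have h1 := congrArg (fun p => (p.map f).eval ab) (X_pow_sub_X_eq_prod_zmod ℓ)
  simp only [Polynomial.map_sub, Polynomial.map_pow, Polynomial.map_X, Polynomial.eval_sub,
    Polynomial.eval_pow, Polynomial.eval_X, Polynomial.map_prod, Polynomial.eval_prod,
    Polynomial.map_C, Polynomial.eval_C] at h1
  rw [h0] at h1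
  obtain ⟨z, -, hz⟩ := Finset.prod_eq_zero_iff.1 h1.symm
  obtain ⟨n, rfl⟩ : ∃ n : ℕ, (n : ZMod ℓ) = z := ⟨z.val, ZMod.natCast_zmod_val z⟩
  refine ⟨(n : ℤ), ?_⟩
  rw [map_natCast, hab, ← map_natCast (Ideal.Quotient.mk _), ← map_sub,
    Ideal.Quotient.eq_zero_iff_mem, Ideal.mem_span_singleton] at hz
  rwa [Int.cast_natCast]

/-- an element of `R'` which is rational and divisible... : if `z : ℤ` is divisible by `ℓ` in `R'`
then it is divisible by `ℓ` in `ℤ`. -/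
theorem UnramBase.int_dvd_of_dvd (hR : UnramBase ℓ I φ R') {z : ℤ}
    (hz : ((ℓ : ℕ) : R') ∣ (z : R')) : (ℓ : ℤ) ∣ z := by
  have hℓ : ℓ.Prime := Fact.out
  by_contra hcon
  have h1 : IsCoprime z (ℓ : ℤ) :=
    (((Nat.prime_iff_prime_int.1 hℓ).coprime_iff_not_dvd).2 hcon).symm
  exact hR.not_unit (isUnit_of_dvd_unit hz (hR.isUnit_intCast h1))

end Fermat.Agent.S19.A
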