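import Fermat.Agent.S19.A.Desc.Span

/-!
# S19 / A / Desc : the global order is closed under comultiplication   (TASK S19/A2-Comul)
-/

set_option autoImplicit false

namespace Fermat.Agent.S19.A

variable {ℓ : ℕ} [Fact ℓ.Prime] {I : Subgroup GQ} {φ : GQ} {R' : Subring Qb} {G : Type}
  [AddCommGroup G] {act : GQ → G → G} {H' : Subalgebra R' (G → Qb)}

/-- expansion of `∑ a_k ⊗ b_k` in a family `u ⊗ u`. -/
theorem sum_mul_expand {Ω X ι κ : Type*} [CommRing Ω] [Fintype ι] [Fintype κ] (u : ι → X → Ω)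
    (a b : κ → X → Ω) (ca cb : κ → ι → Ω) (ha : ∀ k, a k = ∑ j, ca k j • u j)
    (hb : ∀ k, b k = ∑ j, cb k j • u j) (x y : X) :
    ∑ k, a k x * b k y = ∑ p : ι × ι, (∑ k, ca k p.1 * cb k p.2) * (u p.1 x * u p.2 y) := by
  have h1 : ∀ k, a k x * b k y =
      ∑ p : ι × ι, (ca k p.1 * cb k p.2) * (u p.1 x * u p.2 y) := by
    intro k
    rw [Fintype.sum_prod_type, ha k, hb k]
    simp only [Finset.sum_apply, Pi.smul_apply, smul_eq_mul]
    rw [Finset.sum_mul_sum]
    refine Finset.sum_congr rfl fun i _ => Finset.sum_congr rfl fun j _ => ?_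
    ring
  simp only [h1]
  rw [Finset.sum_comm]
  refine Finset.sum_congr rfl fun p _ => ?_
  rw [← Finset.sum_mul]

/-- `coeff_fixed_of_equivariant` for functions of two variables. -/
theorem coeff_fixed_prod {Ω T X ι : Type*} [Field Ω] [Fintype ι] (s : T → Ω →+* Ω)
    (a : T → X → X) (ha : ∀ t, Function.Surjective (a t)) (u : ι → X → Ω)
    (hu : ∀ i t x, u i (a t x) = s t (u i x)) (hli : LinearIndependent Ω u) (g : X → X → Ω)
    (hg : ∀ t x y, g (a t x) (a t y) = s t (g x y)) (c : ι × ι → Ω)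
    (h : ∀ x y, g x y = ∑ p : ι × ι, c p * (u p.1 x * u p.2 y)) : ∀ t p, s t (c p) = c p :=
  coeff_fixed_of_equivariant s (fun (t : T) (z : X × X) => (a t z.1, a t z.2))
    (fun t z => by
      obtain ⟨x, hx⟩ := ha t z.1
      obtain ⟨y, hy⟩ := ha t z.2
      exact ⟨(x, y), Prod.ext hx hy⟩)
    (fun (p : ι × ι) (z : X × X) => u p.1 z.1 * u p.2 z.2)
    (fun p t z => by
      show u p.1 (a t z.1) * u p.2 (a t z.2) = s t (u p.1 z.1 * u p.2 z.2)
      rw [hu, hu, map_mul])
    (linearIndependent_prod _ _ hli hli) (fun z : X × X => g z.1 z.2)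
    (fun t z => hg t z.1 z.2) c (by
      funext z
      rw [h, Finset.sum_apply]
      rfl)

/-- Let `b` be the basis of `globalOrder_exists_basis`.  For `f` in the global order,
`f (x + y) = ∑_k a_k x * b'_k y` with `a_k, b'_k ∈ H'` (`h.comul`); expand `a_k`, `b'_k` by
`exists_coeff`: `f (x + y) = ∑_{(i,j)} c_ij * (b i x * b j y)` with `c_ij ∈ R'`.  The functions
`(x, y) ↦ b i x * b j y` on `G × G` are `Qb`-independent (`linearIndependent_prod`) and equivariant
for the diagonal action, and so is `(x, y) ↦ f (x + y)` (`hact.add`); by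
`coeff_fixed_of_equivariant` (`T = GQ`, `X = G × G`) the `c_ij` are `GQ`-invariant, hence rational
(`exists_rat_of_fixed`), hence in `ℤ_(ℓ)` (`hR.mem_Zl_of_mem`).  Take the index type `ι × ι`,
`a (i,j) = c_ij • b i`, `b (i,j) = b j`. -/
theorem globalOrder_comul [Finite G] (hR : UnramBase ℓ I φ R') (hact : IsGalAction act)
    (h : LocalOrder act I φ R' H') :
    ComulClosed ((globalOrder hR act H' : Subalgebra (Zl ℓ) (G → Qb)) : Set (G → Qb)) := by
  obtain ⟨ι, _, b, hli, hsp⟩ := globalOrder_exists_basis hR hact h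
  intro f hf
  obtain ⟨κ, _, a, b', ha, hb', hab⟩ := h.comul f hf.1
  choose ca hca using fun k => exists_coeff hR hact h b hli hsp (a k) (ha k)
  choose cb hcb using fun k => exists_coeff hR hact h b hli hsp (b' k) (hb' k)
  obtain ⟨c, hcR, hc⟩ : ∃ c : ι × ι → Qb, (∀ p, c p ∈ R') ∧
      ∀ x y, f (x + y) = ∑ p : ι × ι, c p * ((b p.1 : G → Qb) x * (b p.2 : G → Qb) y) := by
    refine ⟨fun p => ∑ k, (ca k p.1 : Qb) * (cb k p.2 : Qb),
      fun p => sum_mem fun k _ => mul_mem (ca k p.1).2 (cb k p.2).2, fun x y => ?_⟩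
    rw [hab]
    exact sum_mul_expand (fun i => (b i : G → Qb)) a b' (fun k j => (ca k j : Qb))
      (fun k j => (cb k j : Qb)) hca hcb x y
  have hfix := coeff_fixed_prod (fun σ : GQ => (σ : Qb →+* Qb)) act hact.surjective
    (fun i => (b i : G → Qb)) (fun i σ x => (b i).2.2 σ x) hli (fun x y => f (x + y))
    (fun σ x y => by
      show f (act σ x + act σ y) = σ (f (x + y))
      rw [← hact.add, hf.2]) c hc
  choose q hq using fun p => exists_rat_of_fixed (c := c p) (fun σ => hfix σ p)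
  have hqZ : ∀ p, q p ∈ Zl ℓ := fun p => hR.mem_Zl_of_mem (by rw [hq]; exact hcR p)
  refine ⟨ι × ι, inferInstance, fun p => (⟨q p, hqZ p⟩ : Zl ℓ) • (b p.1 : G → Qb),
    fun p => (b p.2 : G → Qb), fun p => Subalgebra.smul_mem _ (b p.1).2 _, fun p => (b p.2).2,
    fun x y => ?_⟩
  rw [hc]
  refine Finset.sum_congr rfl fun p _ => ?_
  show c p * ((b p.1 : G → Qb) x * (b p.2 : G → Qb) y) =
    ((⟨q p, hqZ p⟩ : Zl ℓ) • (b p.1 : G → Qb)) x * (b p.2 : G → Qb) y
  rw [Pi.smul_apply, Algebra.smul_def, algebraMap_Zl_Qb, hq, mul_assoc]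

end Fermat.Agent.S19.A
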