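import Fermat.Agent.S19.A.Desc.Local
import Fermat.Agent.S19.A.Smooth

/-!
# S19 / A / Desc : the global order separates points and is finitely generated
-/

set_option autoImplicit false

namespace Fermat.Agent.S19.A

variable {ℓ : ℕ} [Fact ℓ.Prime] {I : Subgroup GQ} {φ : GQ} {R' : Subring Qb} {G : Type}
  [AddCommGroup G] {act : GQ → G → G} {H' : Subalgebra R' (G → Qb)}

/-- TASK S19/A2-Sep. `exists_equivariant_separating` gives an equivariant `f₀` with `f₀ x ≠ f₀ y`;
`ℓ ^ n • f₀ ∈ H'` by `LocalOrder.exists_pow_smul_mem`, it is still equivariant and separates. -/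
theorem globalOrder_sep [Finite G] (hR : UnramBase ℓ I φ R') (hact : IsGalAction act)
    (h : LocalOrder act I φ R' H') :
    ∀ x y : G, x ≠ y → ∃ f ∈ globalOrder hR act H', f x ≠ f y := by
  intro x y hxy
  obtain ⟨f₀, hf₀, hne⟩ := exists_equivariant_separating hact hxy
  obtain ⟨n, hn⟩ := h.exists_pow_smul_mem hR hact f₀ (fun σ _ z => hf₀ σ z)
  have hℓ : ((ℓ : Qb) ^ n) ≠ 0 :=
    pow_ne_zero _ (Nat.cast_ne_zero.mpr (Fact.out : ℓ.Prime).ne_zero)
  refine ⟨(ℓ : Qb) ^ n • f₀, ⟨hn, fun σ z => ?_⟩, fun heq => hne ?_⟩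
  · simp only [Pi.smul_apply, smul_eq_mul, map_mul, map_pow, map_natCast, hf₀]
  · simp only [Pi.smul_apply, smul_eq_mul] at heq
    exact mul_left_cancel₀ hℓ heq

omit [Fact ℓ.Prime] in
/-- TASK S19/A2-EqBasis. There is a `Qb`-basis of all functions consisting of `GQ`-equivariant
functions: the set `S` of equivariant functions contains `1`, is closed under multiplication and
separates points (`exists_equivariant_separating`), so `span Qb S = ⊤`
(`span_eq_top_of_separates`); extract a basis from the spanning set (`exists_linearIndependent`);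
it is finite since `G → Qb` is finite dimensional. -/
theorem exists_equivariant_basis [Finite G] (hact : IsGalAction act) :
    ∃ (ι : Type) (_ : Fintype ι) (v : ι → G → Qb),
      (∀ i (σ : GQ) (x : G), v i (act σ x) = σ (v i x)) ∧ LinearIndependent Qb v ∧
        Submodule.span Qb (Set.range v) = ⊤ := by
  classical
  set S : Set (G → Qb) := {f | ∀ (σ : GQ) (x : G), f (act σ x) = σ (f x)} with hS
  have htop : Submodule.span Qb S = ⊤ := by
    apply span_eq_top_of_separates S
    · intro σ x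
      simp
    · intro f hf g hg σ x
      simp only [Pi.mul_apply, map_mul, hf σ x, hg σ x]
    · intro x y hxy
      obtain ⟨f, hf, hne⟩ := exists_equivariant_separating hact hxy
      exact ⟨f, hf, hne⟩
  obtain ⟨b, hbS, hspan, hli⟩ := exists_linearIndependent Qb S
  have hfin : Finite b := hli.finite
  refine ⟨b, Fintype.ofFinite b, fun i => (i : G → Qb), fun i σ x => hbS i.2 σ x, hli, ?_⟩
  rw [Subtype.range_coe, hspan, htop]

/-- TASK S19/A2-FG. Let `v` be as in `exists_equivariant_basis`, `b'` the basis of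
`LocalOrder.exists_basis`.  Write `b'_i = ∑_j s_ij • v_j`; the `s_ij` are `I`-invariant
(`coeff_fixed_of_equivariant`, `T = I`), so `ℓ ^ c * s_ij ∈ R'` for a common `c` (`hR.fixed`).
For `f` in the global order, `f = ∑_i r_i b'_i` (`r_i ∈ R'`) `= ∑_j q_j • v_j`, `q_j = ∑_i r_i s_ij`;
`q_j` is `GQ`-invariant (`coeff_fixed_of_equivariant`, `T = GQ`), hence rational
(`exists_rat_of_fixed`), and `ℓ ^ c * q_j ∈ R'`, so `ℓ ^ c * q_j ∈ ℤ_(ℓ)` (`hR.mem_Zl_of_mem`).
Hence the global order is contained in the `ℤ_(ℓ)`-span of the finitely many `ℓ^{-c} • v_j`, and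
`ℤ_(ℓ)` is noetherian (PID). -/
theorem globalOrder_fg [Finite G] (hR : UnramBase ℓ I φ R') (hact : IsGalAction act)
    (h : LocalOrder act I φ R' H') :
    (Subalgebra.toSubmodule (globalOrder hR act H')).FG := by
  classical
  obtain ⟨ι, _, v, hveq, hvli, hvspan⟩ := exists_equivariant_basis (G := G) hact
  obtain ⟨κ, _, b, -, -⟩ := h.exists_basis hR hact
  have hℓ0 : (ℓ : Qb) ≠ 0 := by exact_mod_cast (Fact.out : ℓ.Prime).ne_zero
  have hℓR : (ℓ : Qb) ∈ R' := natCast_mem R' ℓ
  -- the coefficients of `b i`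
  have hs : ∀ i : κ, ∃ s : ι → Qb, ((b i : H') : G → Qb) = ∑ j, s j • v j := by
    intro i
    have hmem : ((b i : H') : G → Qb) ∈ Submodule.span Qb (Set.range v) := by
      rw [hvspan]; trivial
    obtain ⟨s, hs⟩ := (Submodule.mem_span_range_iff_exists_fun Qb).mp hmem
    exact ⟨s, hs.symm⟩
  choose s hs using hs
  have hsI : ∀ i j, ∀ σ ∈ I, σ (s i j) = s i j := by
    intro i j σ hσ
    exact coeff_fixed_of_equivariant (fun σ : I => ((σ : GQ) : Qb →+* Qb))
      (fun σ : I => act (σ : GQ)) (fun σ => hact.surjective σ) v (fun j σ x => hveq j σ x) hvli _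
      (fun σ x => h.equiv _ (b i).2 σ σ.2 x) (s i) (hs i) ⟨σ, hσ⟩ j
  choose n hn using fun i j => hR.fixed (s i j) (hsI i j)
  set c : ℕ := ∑ i, ∑ j, n i j with hc
  have hcs : ∀ i j, (ℓ : Qb) ^ c * s i j ∈ R' := by
    intro i j
    have hle : n i j ≤ c := by
      calc n i j ≤ ∑ j, n i j :=
            Finset.single_le_sum (f := fun j => n i j) (fun _ _ => Nat.zero_le _)
              (Finset.mem_univ j)
        _ ≤ c := Finset.single_le_sum (f := fun i => ∑ j, n i j) (fun _ _ => Nat.zero_le _)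
              (Finset.mem_univ i)
    obtain ⟨d, hd⟩ := Nat.exists_eq_add_of_le hle
    rw [hd, add_comm, pow_add, mul_assoc]
    exact R'.mul_mem (R'.pow_mem hℓR d) (hn i j)
  -- the big module
  set N : Submodule (Zl ℓ) (G → Qb) :=
    Submodule.span (Zl ℓ) (Set.range fun j => ((ℓ : Qb) ^ c)⁻¹ • v j) with hN
  have hNfg : N.FG := Submodule.fg_span (Set.finite_range _)
  have hNnoeth : IsNoetherian (Zl ℓ) N := isNoetherian_of_fg_of_noetherian N hNfg
  refine isNoetherian_submodule.mp hNnoeth _ ?_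
  intro f hf
  obtain ⟨hfH, hfeq⟩ := (mem_globalOrder (hR := hR)).mp hf
  -- expand in the basis `b`
  have h1 : f = ∑ i, ((b.repr ⟨f, hfH⟩ i : R') : Qb) • ((b i : H') : G → Qb) := by
    have h2 := congrArg H'.val (b.sum_repr ⟨f, hfH⟩)
    rw [map_sum] at h2
    exact h2.symm
  set q : ι → Qb := fun j => ∑ i, ((b.repr ⟨f, hfH⟩ i : R') : Qb) * s i j with hq
  have h3 : f = ∑ j, q j • v j := by
    rw [h1]
    simp only [hs, Finset.smul_sum, smul_smul, hq, Finset.sum_smul]
    exact Finset.sum_comm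
  have hqfix : ∀ j (σ : GQ), σ (q j) = q j := fun j σ =>
    coeff_fixed_of_equivariant (fun σ : GQ => (σ : Qb →+* Qb)) act hact.surjective v
      (fun j σ x => hveq j σ x) hvli f hfeq q h3 σ j
  choose q' hq' using fun j => exists_rat_of_fixed (hqfix j)
  have hqR : ∀ j, (ℓ : Qb) ^ c * q j ∈ R' := by
    intro j
    rw [hq]
    simp only [Finset.mul_sum]
    refine R'.sum_mem fun i _ => ?_
    have : (ℓ : Qb) ^ c * (((b.repr ⟨f, hfH⟩ i : R') : Qb) * s i j) =
        ((b.repr ⟨f, hfH⟩ i : R') : Qb) * ((ℓ : Qb) ^ c * s i j) := by ring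
    rw [this]
    exact R'.mul_mem (b.repr ⟨f, hfH⟩ i).2 (hcs i j)
  have hz : ∀ j, (ℓ : ℚ) ^ c * q' j ∈ Zl ℓ := by
    intro j
    apply hR.mem_Zl_of_mem
    rw [map_mul, map_pow, map_natCast, hq']
    exact hqR j
  have h4 : f = ∑ j, (⟨(ℓ : ℚ) ^ c * q' j, hz j⟩ : Zl ℓ) • (((ℓ : Qb) ^ c)⁻¹ • v j) := by
    rw [h3]
    refine Finset.sum_congr rfl fun j _ => ?_
    funext x
    simp only [Pi.smul_apply, smul_eq_mul]
    rw [Algebra.smul_def, algebraMap_Zl_Qb]
    show q j * v j x = algebraMap ℚ Qb ((ℓ : ℚ) ^ c * q' j) * (((ℓ : Qb) ^ c)⁻¹ * v j x)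
    rw [map_mul, map_pow, map_natCast, hq']
    field_simp
  rw [h4]
  exact Submodule.sum_mem _ fun j _ => Submodule.smul_mem _ _ (Submodule.subset_span ⟨j, rfl⟩)

theorem globalOrder_exists_basis [Finite G] (hR : UnramBase ℓ I φ R') (hact : IsGalAction act)
    (h : LocalOrder act I φ R' H') :
    ∃ (ι : Type) (_ : Fintype ι) (b : Module.Basis ι (Zl ℓ) (globalOrder hR act H')),
      LinearIndependent Qb (fun i => (b i : G → Qb)) ∧
        Submodule.span Qb (Set.range fun i => (b i : G → Qb)) = ⊤ :=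
  exists_basis_of_order (algebraMap_Zl_Qb_injective ℓ) (fun σ : GQ => (σ : Qb →+* Qb)) act
    hact.surjective (fun _ hc => exists_fraction_of_fixed ℓ hc) _ (globalOrder_fg hR hact h)
    (fun _ hf σ x => hf.2 σ x) (globalOrder_sep hR hact h)

end Fermat.Agent.S19.A
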