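import Fermat.Agent.S19.A.Desc.Base

/-!
# S19 / A / Desc : the global order `H = H' ∩ Map_GQ(G, Qbar)`
-/

set_option autoImplicit false

namespace Fermat.Agent.S19.A

variable {ℓ : ℕ} [Fact ℓ.Prime] {I : Subgroup GQ} {φ : GQ} {R' : Subring Qb} {G : Type}

/-- `H' ∩ Map_GQ(G, Qbar)` as a `ℤ_(ℓ)`-subalgebra. -/
def globalOrder (hR : UnramBase ℓ I φ R') (act : GQ → G → G) (H' : Subalgebra R' (G → Qb)) :
    Subalgebra (Zl ℓ) (G → Qb) where
  carrier := {f | f ∈ H' ∧ ∀ (σ : GQ) (x : G), f (act σ x) = σ (f x)}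
  mul_mem' := fun {f g} hf hg => ⟨H'.mul_mem hf.1 hg.1, fun σ x => by
    simp only [Pi.mul_apply, map_mul, hf.2, hg.2]⟩
  add_mem' := fun {f g} hf hg => ⟨H'.add_mem hf.1 hg.1, fun σ x => by
    simp only [Pi.add_apply, map_add, hf.2, hg.2]⟩
  algebraMap_mem' := fun r => by
    refine ⟨?_, fun σ x => ?_⟩
    · exact H'.algebraMap_mem (⟨_, hR.algebraMap_Zl_mem r⟩ : R')
    · simp only [Pi.algebraMap_apply, algebraMap_Zl_Qb]
      exact (σ.commutes _).symm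

theorem mem_globalOrder {hR : UnramBase ℓ I φ R'} {act : GQ → G → G}
    {H' : Subalgebra R' (G → Qb)} {f : G → Qb} :
    f ∈ globalOrder hR act H' ↔ f ∈ H' ∧ ∀ (σ : GQ) (x : G), f (act σ x) = σ (f x) := Iff.rfl

end Fermat.Agent.S19.A
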