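import Fermat.Agent.S19.A.Desc.FG

/-!
# S19 / A / Desc : the Frobenius argument   (TASK S19/A2-Key)
-/

set_option autoImplicit false

namespace Fermat.Agent.S19.A

variable {ℓ : ℕ} [Fact ℓ.Prime] {I : Subgroup GQ} {φ : GQ} {R' : Subring Qb} {G : Type}
  [AddCommGroup G] {act : GQ → G → G} {H' : Subalgebra R' (G → Qb)}

/-- **Key lemma.** A `ℤ_(ℓ)`-basis `b` of the global order stays independent modulo `ℓ H'` over `R'`.

Proof: strong induction on the number of `j` with `ℓ ∤ c j`.  Suppose `ℓ ∤ c j₀`; then `c j₀` is a unit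
(`hR.unit_or_dvd`) and after multiplying the relation by its inverse (`H'` is an `R'`-module) we may
assume `c j₀ = 1`.  Apply `Φ f := φ ∘ f ∘ act φ⁻¹`: `Φ` is additive, `Φ (a • f) = φ a • Φ f`,
`Φ H' ⊂ H'` (`h.frob`), `Φ (b j) = b j` (equivariance, `hact.mul`, `hact.one`).  So
`∑ φ (c j) • b j ∈ ℓ H'`, and as `φ (c j) - c j ^ ℓ ∈ ℓ R'` (`hR.frob`) and `b j ∈ H'`, also
`∑ (c j ^ ℓ) • b j ∈ ℓ H'`, hence `∑ (c j ^ ℓ - c j) • b j ∈ ℓ H'`.  The new coefficient vector has
`ℓ ∣` at `j₀` and wherever `ℓ ∣ c j`, so by induction `ℓ ∣ c j ^ ℓ - c j` for all `j`, and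
`hR.exists_int_of_pow` gives integers `z j` with `ℓ ∣ c j - z j`.  Then `∑ z j • b j = ℓ • g'` with
`g' ∈ H'`; `g'` is `GQ`-equivariant (it is `ℓ⁻¹ • ∑ z j • b j`), so `g'` lies in the global order;
expanding `g'` in the basis `b` and comparing coefficients, `z j = ℓ * y j` in `ℤ_(ℓ)`, so `ℓ ∣ z j` in
`R'` and `ℓ ∣ c j₀`: contradiction. -/
theorem key_mod [Finite G] (hR : UnramBase ℓ I φ R') (hact : IsGalAction act)
    (h : LocalOrder act I φ R' H') {ι : Type} [Fintype ι]
    (b : Module.Basis ι (Zl ℓ) (globalOrder hR act H')) (c : ι → R') (g : G → Qb) (hg : g ∈ H')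
    (hc : ∑ j, (c j : Qb) • (b j : G → Qb) = (ℓ : Qb) • g) : ∀ j, ((ℓ : ℕ) : R') ∣ c j := by
  classical
  have hℓ : ℓ.Prime := Fact.out
  have hℓ0 : (ℓ : Qb) ≠ 0 := by exact_mod_cast hℓ.ne_zero
  have hsm : ∀ (r : R') (f : G → Qb), f ∈ H' → (r : Qb) • f ∈ H' := fun r f hf => H'.smul_mem hf r
  have hbH : ∀ j, (b j : G → Qb) ∈ H' := fun j => (b j).2.1
  have hbE : ∀ j (σ : GQ) (x : G), (b j : G → Qb) (act σ x) = σ ((b j : G → Qb) x) :=
    fun j => (b j).2.2
  have main : ∀ n : ℕ, ∀ (c : ι → R') (g : G → Qb), g ∈ H' →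
      ∑ j, (c j : Qb) • (b j : G → Qb) = (ℓ : Qb) • g →
      (Finset.univ.filter fun j => ¬ ((ℓ : ℕ) : R') ∣ c j).card = n →
      ∀ j, ((ℓ : ℕ) : R') ∣ c j := by
    intro n
    induction n using Nat.strong_induction_on with
    | _ n ih =>
      intro c g hg hc hn j₀
      by_contra hj₀
      obtain ⟨u, hu⟩ := ((hR.unit_or_dvd (c j₀)).resolve_right hj₀).exists_left_inv
      set c' : ι → R' := fun j => u * c j with hc'
      have hrel' : ∑ j, (c' j : Qb) • (b j : G → Qb) = (ℓ : Qb) • ((u : Qb) • g) := by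
        rw [smul_comm, ← hc, Finset.smul_sum]
        refine Finset.sum_congr rfl fun j _ => ?_
        rw [smul_smul]; rfl
      have hg' : (u : Qb) • g ∈ H' := hsm u g hg
      have hΦ : ∑ j, (φ (c' j : Qb)) • (b j : G → Qb)
          = (ℓ : Qb) • (fun x => φ (((u : Qb) • g) (act φ⁻¹ x))) := by
        funext x
        have := congrArg φ (congrFun hrel' (act φ⁻¹ x))
        simp only [Finset.sum_apply, Pi.smul_apply, smul_eq_mul, map_sum, map_mul,
          map_natCast] at this ⊢
        rw [← this]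
        refine Finset.sum_congr rfl fun j _ => ?_
        rw [← hbE j φ, ← hact.mul, mul_inv_cancel, hact.one]
      have hΦg : (fun x => φ (((u : Qb) • g) (act φ⁻¹ x))) ∈ H' := h.frob _ hg'
      choose d hd using fun j => hR.frob (c' j) (c' j).2
      set c'' : ι → R' := fun j => c' j ^ ℓ - c' j with hc''
      have hrel'' : ∑ j, (c'' j : Qb) • (b j : G → Qb)
          = (ℓ : Qb) • ((fun x => φ (((u : Qb) • g) (act φ⁻¹ x))) - ∑ j, d j • (b j : G → Qb)
              - (u : Qb) • g) := by
        rw [smul_sub, smul_sub, ← hΦ, ← hrel', Finset.smul_sum, ← Finset.sum_sub_distrib,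
          ← Finset.sum_sub_distrib]
        refine Finset.sum_congr rfl fun j _ => ?_
        rw [smul_smul, ← sub_smul, ← sub_smul, ← (hd j).2]
        congr 1
        simp only [hc'']
        push_cast
        ring
      have hg'' : ((fun x => φ (((u : Qb) • g) (act φ⁻¹ x))) - ∑ j, d j • (b j : G → Qb)
              - (u : Qb) • g) ∈ H' := by
        refine H'.sub_mem (H'.sub_mem hΦg (H'.sum_mem fun j _ => ?_)) hg'
        exact hsm ⟨d j, (hd j).1⟩ _ (hbH j)
      have hlt : (Finset.univ.filter fun j => ¬ ((ℓ : ℕ) : R') ∣ c'' j).card < n := by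
        rw [← hn]
        apply Finset.card_lt_card
        rw [Finset.ssubset_iff_of_subset]
        · refine ⟨j₀, by simpa using hj₀, ?_⟩
          simp only [Finset.mem_filter, Finset.mem_univ, true_and, not_not, hc'', hc', hu]
          simp
        · intro j
          simp only [Finset.mem_filter, Finset.mem_univ, true_and]
          intro hj hcj
          apply hj
          have h1 : ((ℓ : ℕ) : R') ∣ c' j := Dvd.dvd.mul_left hcj u
          exact dvd_sub (dvd_pow h1 hℓ.ne_zero) h1
      have hall := ih _ hlt c'' _ hg'' hrel'' rfl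
      choose z hz using fun j => hR.exists_int_of_pow (c' j) (hall j)
      choose e he using hz
      have hrelz : ∑ j, (z j : Qb) • (b j : G → Qb)
          = (ℓ : Qb) • ((u : Qb) • g - ∑ j, (e j : Qb) • (b j : G → Qb)) := by
        rw [smul_sub, ← hrel', Finset.smul_sum, ← Finset.sum_sub_distrib]
        refine Finset.sum_congr rfl fun j _ => ?_
        rw [smul_smul, ← sub_smul]
        congr 1
        have := congrArg (Subtype.val) (he j)
        push_cast at this
        linear_combination -this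
      set g3 : G → Qb := (u : Qb) • g - ∑ j, (e j : Qb) • (b j : G → Qb) with hg3def
      have hg3 : g3 ∈ H' := H'.sub_mem hg' (H'.sum_mem fun j _ => hsm _ _ (hbH j))
      have hg3E : ∀ (σ : GQ) (x : G), g3 (act σ x) = σ (g3 x) := by
        intro σ x
        apply mul_left_cancel₀ hℓ0
        have h1 := congrFun hrelz (act σ x)
        have h2 := congrArg σ (congrFun hrelz x)
        simp only [Finset.sum_apply, Pi.smul_apply, smul_eq_mul, map_sum, map_mul,
          map_natCast, map_intCast] at h1 h2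
        rw [← h1, ← h2]
        exact Finset.sum_congr rfl fun j _ => by rw [hbE]
      let G3 : globalOrder hR act H' := ⟨g3, hg3, hg3E⟩
      have hG : ∑ j, (z j : Zl ℓ) • b j = ((ℓ : ℕ) : Zl ℓ) • G3 := by
        apply Subtype.ext
        have h1 : ((∑ j, (z j : Zl ℓ) • b j : globalOrder hR act H') : G → Qb)
            = ∑ j, (z j : Qb) • (b j : G → Qb) := by
          rw [AddSubmonoidClass.coe_finsetSum]
          refine Finset.sum_congr rfl fun j _ => ?_
          funext x
          show (z j : Zl ℓ) • ((b j : G → Qb) x) = (z j : Qb) * (b j : G → Qb) x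
          rw [Algebra.smul_def, map_intCast]
        rw [h1, hrelz]
        funext x
        show (ℓ : Qb) * g3 x = ((ℓ : ℕ) : Zl ℓ) • (g3 x)
        rw [Algebra.smul_def, map_natCast]
      have hrep := congrArg (fun v => b.repr v j₀) hG
      simp only [map_sum, map_smul, Finsupp.coe_finsetSum, Finset.sum_apply, Finsupp.smul_apply,
        Module.Basis.repr_self, smul_eq_mul] at hrep
      have hz0 : (z j₀ : Zl ℓ) = ((ℓ : ℕ) : Zl ℓ) * (b.repr G3) j₀ := by
        rw [← hrep, Finset.sum_eq_single j₀]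
        · simp
        · intro j _ hj
          simp [hj]
        · intro hj
          exact absurd (Finset.mem_univ _) hj
      have hz1 : ((ℓ : ℕ) : R') ∣ (z j₀ : R') := by
        refine ⟨⟨_, hR.algebraMap_Zl_mem ((b.repr G3) j₀)⟩, ?_⟩
        apply Subtype.ext
        have := congrArg (algebraMap (Zl ℓ) Qb) hz0
        rw [map_mul, map_intCast, map_natCast] at this
        push_cast
        exact this
      have h1 : ((ℓ : ℕ) : R') ∣ 1 := by
        have h2 : c' j₀ = 1 := hu
        have h3 := he j₀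
        rw [h2] at h3
        have h4 : (1 : R') = (z j₀ : R') + ((ℓ : ℕ) : R') * e j₀ := by
          rw [← h3]; ring
        rw [h4]
        exact dvd_add hz1 (dvd_mul_right _ _)
      exact hR.not_unit (isUnit_of_dvd_one h1)
  exact main _ c g hg hc rfl

end Fermat.Agent.S19.A
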