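import Fermat.Agent.S19.A.Desc.Global
import Fermat.Agent.S19.A.OfOrder

/-!
# S19 / A / Desc : the local order `H'`: basis, denominators
-/

set_option autoImplicit false

namespace Fermat.Agent.S19.A

variable {ℓ : ℕ} [Fact ℓ.Prime] {I : Subgroup GQ} {φ : GQ} {R' : Subring Qb} {G : Type}
  [AddCommGroup G] {act : GQ → G → G} {H' : Subalgebra R' (G → Qb)}

theorem LocalOrder.exists_basis [Finite G] (hR : UnramBase ℓ I φ R') (hact : IsGalAction act)
    (h : LocalOrder act I φ R' H') :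
    ∃ (ι : Type) (_ : Fintype ι) (b : Module.Basis ι R' H'),
      LinearIndependent Qb (fun i => (b i : G → Qb)) ∧
        Submodule.span Qb (Set.range fun i => (b i : G → Qb)) = ⊤ :=
  haveI := hR.pid
  exists_basis_of_order (R := R') Subtype.val_injective (fun σ : I => ((σ : GQ) : Qb →+* Qb))
    (fun σ : I => act (σ : GQ)) (fun σ => hact.surjective σ) (fun _ hc => hR.exists_fraction hc) H'
    h.fg (fun f hf σ x => h.equiv f hf σ σ.2 x) h.sep

/-- TASK S19/A2-Denom. Every `I`-equivariant function lies in `ℓ^{-n} H'`.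
Proof: `b` the basis of `LocalOrder.exists_basis`; `f = ∑ c_i • b_i` with `c_i : Qb` (the `b_i` span);
the `c_i` are `I`-invariant (`coeff_fixed_of_equivariant`, `T = I`); `hR.fixed` gives `n_i` with
`ℓ ^ n_i * c_i ∈ R'`; take `n = ∑ n_i`. -/
theorem LocalOrder.exists_pow_smul_mem [Finite G] (hR : UnramBase ℓ I φ R')
    (hact : IsGalAction act) (h : LocalOrder act I φ R' H') (f : G → Qb)
    (hf : ∀ σ ∈ I, ∀ x, f (act σ x) = σ (f x)) : ∃ n : ℕ, ((ℓ : Qb) ^ n • f) ∈ H' := by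
  classical
  obtain ⟨ι, _, b, hli, hspan⟩ := h.exists_basis hR hact
  have hfs : f ∈ Submodule.span Qb (Set.range fun i => (b i : G → Qb)) := by
    rw [hspan]; trivial
  obtain ⟨c, hc⟩ := (Submodule.mem_span_range_iff_exists_fun Qb).mp hfs
  have hfix : ∀ (t : I) (i : ι), (t : GQ) (c i) = c i :=
    coeff_fixed_of_equivariant (fun σ : I => ((σ : GQ) : Qb →+* Qb)) (fun σ : I => act (σ : GQ))
      (fun σ => hact.surjective σ) (fun i => (b i : G → Qb))
      (fun i t x => h.equiv _ (b i).2 t t.2 x) hli f (fun t x => hf t t.2 x) c hc.symm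
  choose n hn using fun i => hR.fixed (c i) (fun σ hσ => hfix ⟨σ, hσ⟩ i)
  refine ⟨∑ i, n i, ?_⟩
  rw [← hc, Finset.smul_sum]
  refine Subalgebra.sum_mem _ fun i _ => ?_
  have hℓ : (ℓ : Qb) ∈ R' := natCast_mem R' ℓ
  have hmem : (ℓ : Qb) ^ (∑ j, n j) * c i ∈ R' := by
    have h1 : ∑ j, n j = (∑ j, n j - n i) + n i :=
      (Nat.sub_add_cancel (Finset.single_le_sum (fun _ _ => Nat.zero_le _)
        (Finset.mem_univ i))).symm
    rw [h1, pow_add, mul_assoc]
    exact R'.mul_mem (R'.pow_mem hℓ _) (hn i)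
  have h2 : (ℓ : Qb) ^ (∑ j, n j) • c i • (b i : G → Qb)
      = (⟨_, hmem⟩ : R') • (b i : G → Qb) := by
    rw [smul_smul]
    rfl
  rw [h2]
  exact H'.smul_mem (b i).2 _

end Fermat.Agent.S19.A
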