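import Fermat.Agent.S19.A.Desc.Comul

/-!
# S19 / A / Desc : the descent theorem
-/

set_option autoImplicit false

namespace Fermat.Agent.S19.A

variable {ℓ : ℕ} [Fact ℓ.Prime] {I : Subgroup GQ} {φ : GQ} {R' : Subring Qb} {G : Type}
  [AddCommGroup G] {act : GQ → G → G} {H' : Subalgebra R' (G → Qb)}

/-- **A2 (descent)**: the global order of a local order is a flat order. -/
theorem LocalOrder.flatOrder [Finite G] (hR : UnramBase ℓ I φ R') (hact : IsGalAction act)
    (h : LocalOrder act I φ R' H') : FlatOrder ℓ act (globalOrder hR act H') where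
  equiv := fun _ hf σ x => hf.2 σ x
  fg := globalOrder_fg hR hact h
  sep := globalOrder_sep hR hact h
  comul := globalOrder_comul hR hact h

/-- **Part A**: a local order over the unramified base gives a finite flat model over `ℤ_(ℓ)`. -/
theorem LocalOrder.hasFlatModel [Finite G] (hR : UnramBase ℓ I φ R') (hact : IsGalAction act)
    (h : LocalOrder act I φ R' H') : HasFlatModel ℓ G act :=
  (h.flatOrder hR hact).hasFlatModel hact

end Fermat.Agent.S19.A
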