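import Mathlib

/-!
# S19 / A / Desc : a Nakayama type criterion (Mathlib only)   (TASK S19/A2-Nak)
-/

set_option autoImplicit false

namespace Fermat.Agent.S19.A

/-- `R` a domain in which every element is a unit or divisible by the prime `π`; `M` free with a
finite basis `b'`; `h : ι → M` a family with as many members as `b'` which is "independent modulo
`π`".  Then `h` spans `M`.

Proof: let `P` be the matrix of `h` in the basis `b'` (reindex by an equivalence `ι ≃ ι'`).  If
`π ∣ det P` then the image of `P` over the domain `R ⧸ (π)` is singular, so it kills a nonzero vector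
(`Matrix.exists_mulVec_eq_zero_iff`); lifting it we get `c` with `∑ c_j h_j ∈ π M`, not all `c_j`
divisible by `π`: contradiction.  So `det P` is a unit, `P` is invertible, and the `b'_i` are
combinations of the `h_j`. -/
theorem span_eq_top_of_indep_mod {R M ι ι' : Type*} [CommRing R] [IsDomain R] (π : R)
    (hπ : Prime π) (hloc : ∀ a : R, IsUnit a ∨ π ∣ a) [AddCommGroup M] [Module R M]
    [Fintype ι] [Fintype ι'] (b' : Module.Basis ι' R M) (h : ι → M)
    (hcard : Fintype.card ι = Fintype.card ι')
    (hkey : ∀ c : ι → R, (∃ m : M, ∑ j, c j • h j = π • m) → ∀ j, π ∣ c j) :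
    Submodule.span R (Set.range h) = ⊤ := by
  classical
  let e : ι ≃ ι' := Fintype.equivOfCardEq hcard
  let P : Matrix ι' ι' R := fun i j => b'.repr (h (e.symm j)) i
  have hP : ∀ j, h (e.symm j) = ∑ i, P i j • b' i := fun j => (b'.sum_repr _).symm
  -- general formula
  have hsum : ∀ v : ι' → R, ∑ j, v j • h (e.symm j) = ∑ i, (P.mulVec v) i • b' i := by
    intro v
    simp only [hP, Finset.smul_sum, smul_smul]
    rw [Finset.sum_comm]
    refine Finset.sum_congr rfl fun i _ => ?_
    rw [← Finset.sum_smul]
    congr 1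
    simp only [Matrix.mulVec, dotProduct]
    exact Finset.sum_congr rfl fun j _ => mul_comm _ _
  have hdet : IsUnit P.det := by
    rcases hloc P.det with hu | hd
    · exact hu
    exfalso
    have hprime : (Ideal.span {π}).IsPrime := (Ideal.span_singleton_prime hπ.ne_zero).2 hπ
    have : IsDomain (R ⧸ Ideal.span {π}) := Ideal.Quotient.isDomain _
    let mk := Ideal.Quotient.mk (Ideal.span {π})
    have hdet0 : (P.map mk).det = 0 := by
      have h1 : (P.map mk).det = mk P.det := by
        rw [RingHom.map_det]; rfl
      rw [h1]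
      exact Ideal.Quotient.eq_zero_iff_mem.2 (Ideal.mem_span_singleton.2 hd)
    obtain ⟨vb, hvb0, hvb⟩ := Matrix.exists_mulVec_eq_zero_iff.2 hdet0
    choose v hv using fun j => Ideal.Quotient.mk_surjective (I := Ideal.span {π}) (vb j)
    have hdvd : ∀ i, π ∣ (P.mulVec v) i := by
      intro i
      have h1 : mk ((P.mulVec v) i) = ((P.map mk).mulVec vb) i := by
        simp only [Matrix.mulVec, dotProduct, map_sum, map_mul, Matrix.map_apply]
        exact Finset.sum_congr rfl fun j _ => by rw [← hv j]
      rw [hvb] at h1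
      exact Ideal.mem_span_singleton.1 (Ideal.Quotient.eq_zero_iff_mem.1 h1)
    choose w hw using hdvd
    have hrel : ∑ j, (v (e j)) • h j = π • ∑ i, w i • b' i := by
      have h1 : ∑ j, (v (e j)) • h j = ∑ j', v j' • h (e.symm j') := by
        refine Fintype.sum_equiv e _ _ fun j => ?_
        simp
      rw [h1, hsum, Finset.smul_sum]
      exact Finset.sum_congr rfl fun i _ => by rw [hw i, mul_smul]
    have hall := hkey (fun j => v (e j)) ⟨_, hrel⟩
    apply hvb0
    funext j
    have h2 := hall (e.symm j)
    simp only [Equiv.apply_symm_apply] at h2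
    rw [← hv j]
    exact Ideal.Quotient.eq_zero_iff_mem.2 (Ideal.mem_span_singleton.2 h2)
  rw [eq_top_iff, ← b'.span_eq, Submodule.span_le]
  rintro _ ⟨i, rfl⟩
  have h1 : b' i = ∑ j, (P⁻¹ j i) • h (e.symm j) := by
    rw [hsum (fun j => P⁻¹ j i)]
    have h2 : ∀ l, (P.mulVec fun j => P⁻¹ j i) l = (1 : Matrix ι' ι' R) l i := by
      intro l
      rw [← Matrix.mul_nonsing_inv P hdet]
      rfl
    simp only [h2, Matrix.one_apply, ite_smul, one_smul, zero_smul]
    simp
  show b' i ∈ Submodule.span R (Set.range h)
  rw [h1]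
  exact Submodule.sum_mem _ fun j _ => Submodule.smul_mem _ _ (Submodule.subset_span ⟨_, rfl⟩)

end Fermat.Agent.S19.A
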