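import Fermat.Agent.S19.A.Desc.Key
import Fermat.Agent.S19.A.Desc.Nak

/-!
# S19 / A / Desc : `R' · H = H'`   (TASK S19/A2-Span)
-/

set_option autoImplicit false

namespace Fermat.Agent.S19.A

variable {ℓ : ℕ} [Fact ℓ.Prime] {I : Subgroup GQ} {φ : GQ} {R' : Subring Qb} {G : Type}
  [AddCommGroup G] {act : GQ → G → G} {H' : Subalgebra R' (G → Qb)}

/-- Apply `span_eq_top_of_indep_mod` to `R = R'`, `π = ℓ` (`hR.prime`, `hR.unit_or_dvd`), `M = H'`,
`b'` the basis of `LocalOrder.exists_basis`, `h j = ⟨b j, _⟩`; both `b` and `b'` are `Qb`-bases of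
`G → Qb` (independent + spanning), so they have the same cardinality (`Module.finrank_eq_card_basis`
for `Module.Basis.mk`); `hkey` is `key_mod`. -/
theorem exists_coeff [Finite G] (hR : UnramBase ℓ I φ R') (hact : IsGalAction act)
    (h : LocalOrder act I φ R' H') {ι : Type} [Fintype ι]
    (b : Module.Basis ι (Zl ℓ) (globalOrder hR act H'))
    (hli : LinearIndependent Qb (fun i => (b i : G → Qb)))
    (hsp : Submodule.span Qb (Set.range fun i => (b i : G → Qb)) = ⊤) :
    ∀ f ∈ H', ∃ c : ι → R', f = ∑ j, (c j : Qb) • (b j : G → Qb) := by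
  classical
  obtain ⟨ι', _, b', hli', hsp'⟩ := h.exists_basis hR hact
  have hcard : Fintype.card ι = Fintype.card ι' := by
    rw [← Module.finrank_eq_card_basis (Module.Basis.mk hli (by rw [hsp])),
      ← Module.finrank_eq_card_basis (Module.Basis.mk hli' (by rw [hsp']))]
  let hfam : ι → H' := fun j => ⟨(b j : G → Qb), (b j).2.1⟩
  have hcoe : ∀ c : ι → R',
      ((∑ j, c j • hfam j : H') : G → Qb) = ∑ j, (c j : Qb) • (b j : G → Qb) := by
    intro c
    rw [AddSubmonoidClass.coe_finset_sum]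
    rfl
  have hspan : Submodule.span R' (Set.range hfam) = ⊤ := by
    refine span_eq_top_of_indep_mod (R := R') ((ℓ : ℕ) : R') hR.prime hR.unit_or_dvd b' hfam
      hcard ?_
    rintro c ⟨m, hm⟩
    refine key_mod hR hact h b c (m : G → Qb) m.2 ?_
    rw [← hcoe c, hm]
    rfl
  intro f hf
  have hmem : (⟨f, hf⟩ : H') ∈ Submodule.span R' (Set.range hfam) := by
    rw [hspan]; trivial
  obtain ⟨c, hc⟩ := (Submodule.mem_span_range_iff_exists_fun R').1 hmem
  refine ⟨c, ?_⟩
  rw [← hcoe c, hc]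

end Fermat.Agent.S19.A
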